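/-
Programme ORD (S33), chapter ALG (helper7): **the robust property `OrdP`**.

`G` a group ("decomposition group" or `G_ℚ`), `I ≤ G` a subgroup ("inertia"), `M` an additive group
with a map `act : G → M → M` (no axioms needed for the closure lemmas).

* `aug I act`    : the augmentation subgroup, generated by all `σ x − x`, `σ ∈ I`;
* `Conn I act A` : the subgroup `A ≤ M` is *connected*: it has no nonzero subquotient `Y'/Y''`
  (`Y'' ≤ Y' ≤ A`) on which `I` acts trivially (`σ y − y ∈ Y''` for all `y ∈ Y'`, `σ ∈ I`);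
* `OrdP I act`   : `Conn I act (aug I act)`; equivalently (`OrdP.of_conn`, `OrdP.iff_exists`) there is
  a connected subgroup `M⁰` with `I` acting trivially on `M/M⁰`.

Closure: `Conn.mono`, `Conn.map`, `Conn.sup`, `OrdP.of_ker_le` (subquotients in kernel form),
`OrdP.of_injective`, `OrdP.of_surjective`, `OrdP.of_addEquiv`, `OrdP.prod`, `OrdP.pi`,
`OrdP.of_subsingleton`.
-/
import Mathlib

set_option autoImplicit false

namespace Fermat.Agent.ORD.ALG.OrdP7

variable {G : Type*} [Group G]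

section Defs

variable {M : Type*} [AddCommGroup M]

/-- the augmentation subgroup: generated by the `σ x − x`, `σ ∈ I`. -/
def aug (I : Subgroup G) (act : G → M → M) : AddSubgroup M :=
  AddSubgroup.closure {m | ∃ σ ∈ I, ∃ x : M, m = act σ x - x}

theorem sub_mem_aug {I : Subgroup G} {act : G → M → M} {σ : G} (hσ : σ ∈ I) (x : M) :
    act σ x - x ∈ aug I act :=
  AddSubgroup.subset_closure ⟨σ, hσ, x, rfl⟩

theorem aug_le {I : Subgroup G} {act : G → M → M} {A : AddSubgroup M}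
    (h : ∀ σ ∈ I, ∀ x : M, act σ x - x ∈ A) : aug I act ≤ A := by
  unfold aug
  rw [AddSubgroup.closure_le]
  rintro m ⟨σ, hσ, x, rfl⟩
  exact h σ hσ x

/-- `A` is connected: no nonzero subquotient of `A` with trivial `I`-action. -/
def Conn (I : Subgroup G) (act : G → M → M) (A : AddSubgroup M) : Prop :=
  ∀ Y'' Y' : AddSubgroup M, Y'' ≤ Y' → Y' ≤ A →
    (∀ σ ∈ I, ∀ y ∈ Y', act σ y - y ∈ Y'') → Y' ≤ Y''

/-- **the robust property**: the augmentation subgroup is connected. -/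
def OrdP (I : Subgroup G) (act : G → M → M) : Prop :=
  Conn I act (aug I act)

theorem Conn.mono {I : Subgroup G} {act : G → M → M} {A B : AddSubgroup M} (h : Conn I act B)
    (hAB : A ≤ B) : Conn I act A :=
  fun Y'' Y' h1 h2 h3 => h Y'' Y' h1 (h2.trans hAB) h3

/-- a connected subgroup on whose quotient `I` acts trivially gives `OrdP`. -/
theorem OrdP.of_conn {I : Subgroup G} {act : G → M → M} (M0 : AddSubgroup M)
    (htriv : ∀ σ ∈ I, ∀ x : M, act σ x - x ∈ M0) (hconn : Conn I act M0) : OrdP I act :=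
  hconn.mono (aug_le htriv)

theorem OrdP.iff_exists {I : Subgroup G} {act : G → M → M} :
    OrdP I act ↔ ∃ M0 : AddSubgroup M, (∀ σ ∈ I, ∀ x : M, act σ x - x ∈ M0) ∧ Conn I act M0 :=
  ⟨fun h => ⟨aug I act, fun _ hσ x => sub_mem_aug hσ x, h⟩,
    fun ⟨M0, h1, h2⟩ => OrdP.of_conn M0 h1 h2⟩

/-- a trivial module is connected. -/
theorem Conn.bot {I : Subgroup G} {act : G → M → M} : Conn I act ⊥ := by
  intro Y'' Y' _ h2 _ y hy
  have : y = 0 := (AddSubgroup.mem_bot).mp (h2 hy)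
  rw [this]
  exact Y''.zero_mem

end Defs

section Maps

variable {M N : Type*} [AddCommGroup M] [AddCommGroup N]

/-- images of connected subgroups under `I`-equivariant additive maps are connected (the source must
be `I`-stable). -/
theorem Conn.map {I : Subgroup G} {actM : G → M → M} {actN : G → N → N} {A : AddSubgroup M}
    (h : Conn I actM A) (hA : ∀ σ ∈ I, ∀ x ∈ A, actM σ x ∈ A) (φ : M →+ N)
    (hφ : ∀ σ ∈ I, ∀ x : M, φ (actM σ x) = actN σ (φ x)) : Conn I actN (A.map φ) := by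
  intro Y'' Y' h1 h2 h3
  have key : A ⊓ Y'.comap φ ≤ A ⊓ Y''.comap φ := by
    refine h _ _ (inf_le_inf_left _ (AddSubgroup.comap_mono h1)) inf_le_left ?_
    intro σ hσ x hx
    obtain ⟨hxA, hxY⟩ := AddSubgroup.mem_inf.mp hx
    refine AddSubgroup.mem_inf.mpr ⟨A.sub_mem (hA σ hσ x hxA) hxA, ?_⟩
    rw [AddSubgroup.mem_comap, map_sub, hφ σ hσ]
    exact h3 σ hσ _ hxY
  intro y hy
  obtain ⟨x, hxA, rfl⟩ := AddSubgroup.mem_map.mp (h2 hy)
  have hx : x ∈ A ⊓ Y'.comap φ := AddSubgroup.mem_inf.mpr ⟨hxA, hy⟩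
  exact (AddSubgroup.mem_inf.mp (key hx)).2

end Maps

section Sup

variable {M : Type*} [AddCommGroup M]

/-- the sum of two connected subgroups is connected. -/
theorem Conn.sup {I : Subgroup G} {act : G → M → M} {A B : AddSubgroup M}
    (hA : Conn I act A) (hB : Conn I act B)
    (hadd : ∀ σ ∈ I, ∀ x y : M, act σ (x + y) = act σ x + act σ y)
    (hAst : ∀ σ ∈ I, ∀ x ∈ A, act σ x ∈ A) (hBst : ∀ σ ∈ I, ∀ x ∈ B, act σ x ∈ B) :
    Conn I act (A ⊔ B) := by
  intro Y'' Y' h1 h2 h3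
  -- step 1: `Y' ⊓ A ≤ Y''`
  have s1 : Y' ⊓ A ≤ Y'' ⊓ A := by
    refine hA _ _ (inf_le_inf_right _ h1) inf_le_right ?_
    intro σ hσ y hy
    obtain ⟨hyY, hyA⟩ := AddSubgroup.mem_inf.mp hy
    exact AddSubgroup.mem_inf.mpr ⟨h3 σ hσ y hyY, A.sub_mem (hAst σ hσ y hyA) hyA⟩
  -- step 2: `(Y' ⊔ A) ⊓ B ≤ (Y'' ⊔ A) ⊓ B`
  have s2 : (Y' ⊔ A) ⊓ B ≤ (Y'' ⊔ A) ⊓ B := by
    refine hB _ _ (inf_le_inf_right _ (sup_le_sup_right h1 _)) inf_le_right ?_
    intro σ hσ b hb
    obtain ⟨hbYA, hbB⟩ := AddSubgroup.mem_inf.mp hb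
    refine AddSubgroup.mem_inf.mpr ⟨?_, B.sub_mem (hBst σ hσ b hbB) hbB⟩
    obtain ⟨y, hy, a, ha, rfl⟩ := AddSubgroup.mem_sup.mp hbYA
    have e : act σ (y + a) - (y + a) = (act σ y - y) + (act σ a - a) := by
      rw [hadd σ hσ]; abel
    rw [e]
    exact AddSubgroup.mem_sup.mpr ⟨_, h3 σ hσ y hy, _, A.sub_mem (hAst σ hσ a ha) ha, rfl⟩
  intro y hy
  obtain ⟨a, ha, b, hb, rfl⟩ := AddSubgroup.mem_sup.mp (h2 hy)
  -- `b = (a + b) - a ∈ (Y' ⊔ A) ⊓ B`
  have hb' : b ∈ (Y' ⊔ A) ⊓ B := by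
    refine AddSubgroup.mem_inf.mpr ⟨?_, hb⟩
    have : b = (a + b) + (-a) := by abel
    rw [this]
    exact AddSubgroup.mem_sup.mpr ⟨_, hy, _, A.neg_mem ha, rfl⟩
  obtain ⟨y'', hy'', a', ha', hsum⟩ := AddSubgroup.mem_sup.mp (AddSubgroup.mem_inf.mp (s2 hb')).1
  -- `a + b = (a + a') + y''`, and `a + a' = (a + b) - y'' ∈ Y' ⊓ A`
  have h4 : a + a' ∈ Y' ⊓ A := by
    refine AddSubgroup.mem_inf.mpr ⟨?_, A.add_mem ha ha'⟩
    have : a + a' = (a + b) - y'' := by rw [← hsum]; abel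
    rw [this]
    exact Y'.sub_mem hy (h1 hy'')
  have h5 : a + a' ∈ Y'' := (AddSubgroup.mem_inf.mp (s1 h4)).1
  have : a + b = (a + a') + y'' := by rw [← hsum]; abel
  rw [this]
  exact Y''.add_mem h5 hy''

end Sup

section Closure

variable {X Y Z : Type*} [AddCommGroup X] [AddCommGroup Y] [AddCommGroup Z]

/-- **subquotients, kernel form** (the shape of `FF/S32/FlatChain5.hasFlatModel_of_ker_le`): if `Y`
has `OrdP`, `f : X → Y` and `q : X → Z` are `I`-equivariant additive maps, `q` surjective and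
`ker f ⊆ ker q`, then `Z` has `OrdP`. No axioms on the maps `act*` are needed. -/
theorem OrdP.of_ker_le {I : Subgroup G} {actX : G → X → X} {actY : G → Y → Y} {actZ : G → Z → Z}
    (h : OrdP I actY) (f : X →+ Y) (hf : ∀ σ ∈ I, ∀ x : X, f (actX σ x) = actY σ (f x))
    (q : X →+ Z) (hq : Function.Surjective q)
    (hqact : ∀ σ ∈ I, ∀ x : X, q (actX σ x) = actZ σ (q x))
    (hker : ∀ x : X, f x = 0 → q x = 0) : OrdP I actZ := by
  -- `aug Z = q (aug X)` and `f (aug X) ≤ aug Y`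
  have hZ : aug I actZ ≤ (aug I actX).map q := by
    refine aug_le ?_
    intro σ hσ z
    obtain ⟨x, rfl⟩ := hq z
    refine AddSubgroup.mem_map.mpr ⟨actX σ x - x, sub_mem_aug hσ x, ?_⟩
    rw [map_sub, hqact σ hσ]
  have hY : (aug I actX).map f ≤ aug I actY := by
    rw [AddSubgroup.map_le_iff_le_comap]
    refine aug_le ?_
    intro σ hσ x
    rw [AddSubgroup.mem_comap, map_sub, hf σ hσ]
    exact sub_mem_aug hσ _
  intro Z'' Z' h1 h2 h3
  -- the subgroups of `X`
  set X' : AddSubgroup X := Z'.comap q ⊓ aug I actX with hX'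
  set X'' : AddSubgroup X := Z''.comap q ⊓ aug I actX with hX''
  have key : X'.map f ≤ X''.map f := by
    refine h _ _ (AddSubgroup.map_mono (inf_le_inf_right _ (AddSubgroup.comap_mono h1)))
      ((AddSubgroup.map_mono inf_le_right).trans hY) ?_
    intro σ hσ y hy
    obtain ⟨x, hx, rfl⟩ := AddSubgroup.mem_map.mp hy
    obtain ⟨hxZ, hxa⟩ := AddSubgroup.mem_inf.mp hx
    refine AddSubgroup.mem_map.mpr ⟨actX σ x - x, AddSubgroup.mem_inf.mpr ⟨?_, sub_mem_aug hσ x⟩, ?_⟩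
    · rw [AddSubgroup.mem_comap, map_sub, hqact σ hσ]
      exact h3 σ hσ _ hxZ
    · rw [map_sub, hf σ hσ]
  intro z hz
  obtain ⟨x, hxa, rfl⟩ := AddSubgroup.mem_map.mp (hZ (h2 hz))
  have hx : x ∈ X' := AddSubgroup.mem_inf.mpr ⟨hz, hxa⟩
  obtain ⟨x'', hx'', hxx⟩ := AddSubgroup.mem_map.mp (key (AddSubgroup.mem_map_of_mem f hx))
  have h0 : q (x - x'') = 0 := hker _ (by rw [map_sub, hxx, sub_self])
  rw [map_sub, sub_eq_zero] at h0
  rw [h0]
  exact (AddSubgroup.mem_inf.mp hx'').1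

/-- `OrdP` passes to `I`-stable subobjects. -/
theorem OrdP.of_injective {I : Subgroup G} {actX : G → X → X} {actY : G → Y → Y}
    (h : OrdP I actY) (f : X →+ Y) (hinj : Function.Injective f)
    (hf : ∀ σ ∈ I, ∀ x : X, f (actX σ x) = actY σ (f x)) : OrdP I actX :=
  h.of_ker_le f hf (AddMonoidHom.id X) Function.surjective_id (fun _ _ _ => rfl)
    (fun x hx => hinj (by rw [AddMonoidHom.id_apply, hx, map_zero]))

/-- `OrdP` passes to quotients. -/
theorem OrdP.of_surjective {I : Subgroup G} {actY : G → Y → Y} {actZ : G → Z → Z}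
    (h : OrdP I actY) (q : Y →+ Z) (hq : Function.Surjective q)
    (hqact : ∀ σ ∈ I, ∀ y : Y, q (actY σ y) = actZ σ (q y)) : OrdP I actZ :=
  h.of_ker_le (AddMonoidHom.id Y) (fun _ _ _ => rfl) q hq hqact
    (fun y hy => by rw [show y = 0 from hy, map_zero])

/-- `OrdP` is invariant under equivariant isomorphisms. -/
theorem OrdP.of_addEquiv {I : Subgroup G} {actY : G → Y → Y} {actZ : G → Z → Z}
    (h : OrdP I actY) (e : Y ≃+ Z) (he : ∀ σ ∈ I, ∀ y : Y, e (actY σ y) = actZ σ (e y)) :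
    OrdP I actZ :=
  h.of_surjective e.toAddMonoidHom e.surjective he

/-- a trivial module has `OrdP`. -/
theorem OrdP.of_subsingleton [Subsingleton Y] {I : Subgroup G} {actY : G → Y → Y} :
    OrdP I actY := by
  intro Y'' Y' _ _ _ y _
  rw [Subsingleton.elim y 0]
  exact Y''.zero_mem

theorem act_zero_of_add {I : Subgroup G} {actY : G → Y → Y}
    (hadd : ∀ σ ∈ I, ∀ x y : Y, actY σ (x + y) = actY σ x + actY σ y) {σ : G} (hσ : σ ∈ I) :
    actY σ 0 = 0 := by
  have h := hadd σ hσ 0 0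
  rw [add_zero] at h
  exact left_eq_add.mp h

theorem act_mem_aug {I : Subgroup G} {actY : G → Y → Y} {σ : G} (hσ : σ ∈ I) {x : Y}
    (hx : x ∈ aug I actY) : actY σ x ∈ aug I actY := by
  have : actY σ x = (actY σ x - x) + x := by abel
  rw [this]
  exact (aug I actY).add_mem (sub_mem_aug hσ x) hx

/-- **products** (additive actions). -/
theorem OrdP.prod {I : Subgroup G} {actY : G → Y → Y} {actZ : G → Z → Z}
    (hY : OrdP I actY) (hZ : OrdP I actZ)
    (hYadd : ∀ σ ∈ I, ∀ x y : Y, actY σ (x + y) = actY σ x + actY σ y)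
    (hZadd : ∀ σ ∈ I, ∀ x y : Z, actZ σ (x + y) = actZ σ x + actZ σ y) :
    OrdP I (fun σ (x : Y × Z) => (actY σ x.1, actZ σ x.2)) := by
  set act : G → Y × Z → Y × Z := fun σ x => (actY σ x.1, actZ σ x.2) with hact
  have hA : Conn I act ((aug I actY).map (AddMonoidHom.inl Y Z)) :=
    Conn.map hY (fun σ hσ x hx => act_mem_aug hσ hx) (AddMonoidHom.inl Y Z) (by
      intro σ hσ a
      show ((actY σ a, (0 : Z)) : Y × Z) = (actY σ a, actZ σ 0)
      rw [act_zero_of_add hZadd hσ])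
  have hB : Conn I act ((aug I actZ).map (AddMonoidHom.inr Y Z)) :=
    Conn.map hZ (fun σ hσ x hx => act_mem_aug hσ hx) (AddMonoidHom.inr Y Z) (by
      intro σ hσ b
      show (((0 : Y), actZ σ b) : Y × Z) = (actY σ 0, actZ σ b)
      rw [act_zero_of_add hYadd hσ])
  have hsup := Conn.sup hA hB (by
      intro σ hσ x y
      show ((actY σ (x.1 + y.1), actZ σ (x.2 + y.2)) : Y × Z) = _
      rw [hYadd σ hσ, hZadd σ hσ]
      rfl) (by
      rintro σ hσ _ ⟨a, ha, rfl⟩
      refine AddSubgroup.mem_map.mpr ⟨actY σ a, act_mem_aug hσ ha, ?_⟩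
      show ((actY σ a, (0 : Z)) : Y × Z) = (actY σ a, actZ σ 0)
      rw [act_zero_of_add hZadd hσ]) (by
      rintro σ hσ _ ⟨b, hb, rfl⟩
      refine AddSubgroup.mem_map.mpr ⟨actZ σ b, act_mem_aug hσ hb, ?_⟩
      show (((0 : Y), actZ σ b) : Y × Z) = (actY σ 0, actZ σ b)
      rw [act_zero_of_add hYadd hσ])
  refine hsup.mono (aug_le ?_)
  intro σ hσ x
  refine AddSubgroup.mem_sup.mpr ⟨(actY σ x.1 - x.1, 0),
    AddSubgroup.mem_map.mpr ⟨_, sub_mem_aug hσ x.1, rfl⟩, (0, actZ σ x.2 - x.2),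
    AddSubgroup.mem_map.mpr ⟨_, sub_mem_aug hσ x.2, rfl⟩, ?_⟩
  show ((actY σ x.1 - x.1 + 0, 0 + (actZ σ x.2 - x.2)) : Y × Z) = (actY σ x.1 - x.1, actZ σ x.2 - x.2)
  rw [add_zero, zero_add]

/-- **finite powers** (additive actions). -/
theorem OrdP.pi {I : Subgroup G} {actY : G → Y → Y} (hY : OrdP I actY)
    (hYadd : ∀ σ ∈ I, ∀ x y : Y, actY σ (x + y) = actY σ x + actY σ y) (n : ℕ) :
    OrdP I (fun σ (f : Fin n → Y) i => actY σ (f i)) := by
  induction n with
  | zero => exact OrdP.of_subsingleton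
  | succ n ih =>
    have h1 := OrdP.prod hY ih hYadd (by
      intro σ hσ x y
      funext i
      exact hYadd σ hσ (x i) (y i))
    let φ : Y × (Fin n → Y) ≃+ (Fin (n + 1) → Y) :=
      { toFun := fun x => Fin.cons x.1 x.2
        invFun := fun f => (f 0, Fin.tail f)
        left_inv := fun x => by simp
        right_inv := fun f => by simp
        map_add' := fun x y => by
          funext i
          refine Fin.cases ?_ (fun j => ?_) i
          · simp
          · simp }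
    refine h1.of_addEquiv φ ?_
    intro σ _ x
    funext i
    refine Fin.cases ?_ (fun j => ?_) i
    · simp [φ]
    · simp [φ]

end Closure

end Fermat.Agent.ORD.ALG.OrdP7
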