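/-
Programme ORD (S33), chapter O1 ALG, helper7.  **An inertia element at `p` with `det - 1` a unit.**

`P` a valuation subring of `ℚ̄` over the odd prime `p`, `ρ : G_ℚ → GL₂(T)` the Hecke Galois
representation (`T` local with `p ∈ 𝔪_T`, `det ρ(Frob_ℓ) = ℓ` for `ℓ ∉ S`, `p ∈ S`).  Then some
`σ₀ ∈ I_P` has `det ρ(σ₀) - 1 ∈ Tˣ`.

* `exists_inertia_moves_zeta` : some `σ₀ ∈ I_P` moves a primitive `p`-th root of unity `ζ`
  (otherwise `(1 - ζ) / p ∈ P` by `ES/P36/UnrFixed1`, against `p = (1 - ζ) ^ (p - 1) * u`, `p ≥ 3`);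
* `frobenius_pow_apply` : `φ ^ j` raises `p`-th roots of unity to the `ℓ ^ j`-th power;
* `exists_inertia_det_sub_one_isUnit` : Chebotarev (`ES/GAL/ChebQbar23`) gives `ℓ ∉ S`, `φ`, `j` with
  `σ₀⁻¹ φ ^ j` trivial on `ℚ(ζ) L₁` (`L₁` the field cut out by `ρ mod 𝔪`): `ℓ ^ j ≢ 1 mod p` and
  `det ρ(σ₀) ≡ ℓ ^ j mod 𝔪`;
* `exists_inertia_det_sub_one_isUnit_of_datum` : the same for a `HeckeGaloisRepDatum`.
-/
import Mathlib
import Fermat.Prelude.Def_CuspForm_HeckeGaloisRepDatum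
import Fermat.Agent.ES.P36.UnrFixed1
import Fermat.Agent.ES.J.CycloChar8
import Fermat.Agent.ES.GAL.ChebQbar23
import Fermat.Agent.ES.ALG31.RankTwo1
import Fermat.Agent.ES.ALG31.Lucas15

set_option autoImplicit false

namespace Fermat.Agent.ORD.ALG.DetInertia7

local notation "Qb" => AlgebraicClosure ℚ
local notation "GQ" => (AlgebraicClosure ℚ ≃ₐ[ℚ] AlgebraicClosure ℚ)

open Fermat.Agent.ES.J.CycloChar8

section Zeta

variable {p : ℕ} (P : ValuationSubring Qb)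

/-- `1 - ζ ∈ 𝔪_P` for a `p`-th root of unity `ζ` when `P` lies over `p`. -/
theorem one_sub_mem_nonunits (hp : p.Prime) (hP : P.LiesOverPrime p) {ζ : Qb}
    (hζ : ζ ^ p = 1) : 1 - ζ ∈ P.nonunits := by
  have hζP : ζ ∈ P := mem_of_pow_eq_one hp.ne_zero hζ
  have : Fact p.Prime := ⟨hp⟩
  have : CharP (IsLocalRing.ResidueField P) p := by
    rw [CharP.charP_iff_prime_eq_zero hp]
    obtain ⟨hmem, hmax⟩ := ValuationSubring.mem_nonunits_iff_exists_mem_maximalIdeal.mp hP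
    have h1 : (⟨(p : Qb), hmem⟩ : P) = ((p : ℕ) : P) := Subtype.ext (by simp)
    rw [h1, ← IsLocalRing.residue_eq_zero_iff, map_natCast] at hmax
    exact hmax
  set z : P := ⟨ζ, hζP⟩ with hz
  have hzp : z ^ p = 1 := Subtype.ext (by simpa using hζ)
  have h1 : (1 - IsLocalRing.residue P z) ^ p = 0 := by
    rw [sub_pow_char, one_pow, ← map_pow, hzp, map_one, sub_self]
  have h2 : IsLocalRing.residue P (1 - z) = 0 := by
    rw [map_sub, map_one]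
    exact pow_eq_zero_iff hp.ne_zero |>.mp h1
  rw [IsLocalRing.residue_eq_zero_iff] at h2
  exact ValuationSubring.mem_nonunits_iff_exists_mem_maximalIdeal.mpr
    ⟨sub_mem P.one_mem hζP, h2⟩

/-- **Some inertia element at `P ∣ p` moves a primitive `p`-th root of unity** (`p` odd). -/
theorem exists_inertia_moves_zeta (hp : p.Prime) (hp2 : p ≠ 2) (hP : P.LiesOverPrime p) {ζ : Qb}
    (hζ : IsPrimitiveRoot ζ p) : ∃ τ ∈ P.inertiaSubgroupIn ℚ, τ ζ ≠ ζ := by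
  by_contra hcon0
  have hfixζ : ∀ τ ∈ P.inertiaSubgroupIn ℚ, τ ζ = ζ := fun τ hτ => by
    by_contra h
    exact hcon0 ⟨τ, hτ, h⟩
  have hζP : ζ ∈ P := mem_of_pow_eq_one hp.ne_zero hζ.pow_eq_one
  have hx : 1 - ζ ∈ P.nonunits := one_sub_mem_nonunits P hp hP hζ.pow_eq_one
  have hfix : ∀ τ ∈ P.inertiaSubgroupIn ℚ, τ (1 - ζ) = 1 - ζ := fun τ hτ => by
    rw [map_sub, map_one, hfixζ τ hτ]
  have hdiv := Fermat.Agent.ES.P36.UnrFixed1.div_natCast_mem_of_fixed P hp hP (1 - ζ) hfix hx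
  -- `p = (1 - ζ) ^ (p - 1) * u`, `u ∈ P`
  obtain ⟨n, rfl⟩ : ∃ n, p = n + 1 := ⟨p - 1, (Nat.succ_pred_eq_of_pos hp.pos).symm⟩
  have hprod := hζ.prod_one_sub_pow_eq_order
  have hfac : ∀ k : ℕ, 1 - ζ ^ (k + 1) = (1 - ζ) * ∑ i ∈ Finset.range (k + 1), ζ ^ i := by
    intro k
    have := mul_neg_geom_sum ζ (k + 1)
    rw [this]
  have hprod2 : ((n + 1 : ℕ) : Qb) =
      (1 - ζ) ^ n * ∏ k ∈ Finset.range n, ∑ i ∈ Finset.range (k + 1), ζ ^ i := by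
    rw [Nat.cast_add, Nat.cast_one, ← hprod, Finset.prod_congr rfl (fun k _ => hfac k),
      Finset.prod_mul_distrib, Finset.prod_const, Finset.card_range]
  have huP : (∏ k ∈ Finset.range n, ∑ i ∈ Finset.range (k + 1), ζ ^ i) ∈ P :=
    Subring.prod_mem _ fun k _ => Subring.sum_mem _ fun i _ => pow_mem hζP i
  -- valuations
  have hx0 : (1 : Qb) - ζ ≠ 0 := by
    intro h
    have h1 : ζ = 1 := (sub_eq_zero.mp h).symm
    have := hζ.unique (h1 ▸ IsPrimitiveRoot.one)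
    exact hp.one_lt.ne' this
  have hvx : P.valuation (1 - ζ) < 1 := (ValuationSubring.mem_nonunits_iff (A := P)).mp hx
  have hvx0 : P.valuation (1 - ζ) ≠ 0 := by rwa [ne_eq, map_eq_zero]
  have hvu : P.valuation (∏ k ∈ Finset.range n, ∑ i ∈ Finset.range (k + 1), ζ ^ i) ≤ 1 :=
    (ValuationSubring.valuation_le_one_iff P _).mpr huP
  have hp0 : ((n + 1 : ℕ) : Qb) ≠ 0 := Nat.cast_ne_zero.mpr hp.ne_zero
  have hvdiv : P.valuation (1 - ζ) ≤ P.valuation ((n + 1 : ℕ) : Qb) := by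
    have h1 := (ValuationSubring.valuation_le_one_iff P _).mpr hdiv
    rw [map_div₀] at h1
    have hvp0 : P.valuation ((n + 1 : ℕ) : Qb) ≠ 0 := by rwa [ne_eq, map_eq_zero]
    exact (div_le_one₀ (zero_lt_iff.mpr hvp0)).mp h1
  have hn2 : 2 ≤ n := by
    have := hp.two_le
    omega
  have hvp : P.valuation ((n + 1 : ℕ) : Qb) < P.valuation (1 - ζ) := by
    rw [hprod2, map_mul, map_pow]
    calc P.valuation (1 - ζ) ^ n * P.valuation _ ≤ P.valuation (1 - ζ) ^ n * 1 :=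
          mul_le_mul' le_rfl hvu
      _ = P.valuation (1 - ζ) ^ n := mul_one _
      _ < P.valuation (1 - ζ) ^ 1 :=
          pow_lt_pow_right_of_lt_one₀ (zero_lt_iff.mpr hvx0) hvx (by omega)
      _ = P.valuation (1 - ζ) := pow_one _
  exact absurd hvdiv (not_le.mpr hvp)

end Zeta

section Frob

variable (p : ℕ) [hpf : Fact p.Prime]

/-- a Frobenius lift at `ℓ ≠ p` raises the `p`-th roots of unity to the `ℓ`-th power. -/
theorem frobenius_apply {ℓ : ℕ} (hℓ : ℓ.Prime) (hℓp : ℓ ≠ p) (A : ValuationSubring Qb)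
    (hA : A.LiesOverPrime ℓ) {φ : GQ} (hφ : A.IsFrobeniusAt φ ℓ) {x : Qb} (hx : x ^ p = 1) :
    φ x = x ^ ℓ := by
  have hx1 : x ^ p ^ 1 = 1 := by rwa [pow_one]
  have h1 := cyclo_spec p φ x hx1
  rw [cyclo_of_isFrobeniusAt p hℓ hℓp A hA hφ, map_natCast, ZMod.val_natCast, pow_one,
    ← pow_eq_pow_mod ℓ hx] at h1
  exact h1

/-- `φ ^ j` raises the `p`-th roots of unity to the `ℓ ^ j`-th power. -/
theorem frobenius_pow_apply {ℓ : ℕ} (hℓ : ℓ.Prime) (hℓp : ℓ ≠ p) (A : ValuationSubring Qb)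
    (hA : A.LiesOverPrime ℓ) {φ : GQ} (hφ : A.IsFrobeniusAt φ ℓ) (j : ℕ) {x : Qb}
    (hx : x ^ p = 1) : (φ ^ j) x = x ^ ℓ ^ j := by
  induction j generalizing x with
  | zero => simp
  | succ j ih =>
    rw [pow_succ, AlgEquiv.mul_apply, frobenius_apply p hℓ hℓp A hA hφ hx, map_pow, ih hx,
      ← pow_mul, ← pow_succ]

end Frob

section Main

variable {p : ℕ} {T : Type} [CommRing T] [IsLocalRing T]

/-- `p ∈ 𝔪_T`, `p ∤ m` ⇒ `(m : T)` is a unit. -/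
theorem isUnit_natCast_of_not_dvd (hp : p.Prime) (hpT : (p : T) ∈ IsLocalRing.maximalIdeal T)
    {m : ℕ} (hm : ¬ p ∣ m) : IsUnit (m : T) := by
  have hcop : IsCoprime ((p : ℕ) : ℤ) ((m : ℕ) : ℤ) :=
    Nat.isCoprime_iff_coprime.mpr ((Nat.Prime.coprime_iff_not_dvd hp).mpr hm)
  have h1 := hcop.map (Int.castRingHom T)
  simp only [eq_intCast, Int.cast_natCast] at h1
  obtain ⟨u, v, huv⟩ := h1
  by_contra hnu
  have hmem : (m : T) ∈ IsLocalRing.maximalIdeal T := (IsLocalRing.mem_maximalIdeal _).mpr hnu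
  have h1mem : (1 : T) ∈ IsLocalRing.maximalIdeal T := by
    rw [← huv]
    exact Ideal.add_mem _ (Ideal.mul_mem_left _ u hpT) (Ideal.mul_mem_left _ v hmem)
  exact (IsLocalRing.maximalIdeal.isMaximal T).ne_top ((Ideal.eq_top_iff_one _).mpr h1mem)

/-- **An inertia element at `P ∣ p` with `det ρ(σ₀) - 1 ∈ Tˣ`**, abstract form: `ρ` adically
continuous with `det ρ(Frob_ℓ) = ℓ` for all `ℓ ∉ S`, `p ∈ S`, `p` odd, `p ∈ 𝔪_T`. -/
theorem exists_inertia_det_sub_one_isUnit (hp : p.Prime) (hp2 : p ≠ 2)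
    (hpT : (p : T) ∈ IsLocalRing.maximalIdeal T) (ρ : GaloisRepAdic T) (S : Finset ℕ)
    (hpS : p ∈ S)
    (hdet : ∀ ℓ : ℕ, ℓ.Prime → ℓ ∉ S → ∀ A : ValuationSubring Qb, A.LiesOverPrime ℓ →
      ∀ φ : GQ, A.IsFrobeniusAt φ ℓ → LinearMap.det (ρ.ρ φ) = (ℓ : T))
    (P : ValuationSubring Qb) (hP : P.LiesOverPrime p) :
    ∃ σ₀ ∈ P.inertiaSubgroupIn ℚ, IsUnit (LinearMap.det (ρ.ρ σ₀) - 1) := by
  have : Fact p.Prime := ⟨hp⟩
  obtain ⟨ζ, hζ1⟩ := exists_primitiveRoot p 1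
  have hζ : IsPrimitiveRoot ζ p := by rwa [pow_one] at hζ1
  obtain ⟨σ₀, hσ₀, hmove⟩ := exists_inertia_moves_zeta P hp hp2 hP hζ
  refine ⟨σ₀, hσ₀, ?_⟩
  -- Chebotarev
  obtain ⟨L₁, hL₁, h1⟩ := ρ.isAdicContinuous 1
  have := hL₁
  have hfinζ : FiniteDimensional ℚ (IntermediateField.adjoin ℚ {ζ}) :=
    IntermediateField.adjoin.finiteDimensional (Algebra.IsIntegral.isIntegral ζ)
  obtain ⟨ℓ, A, φ, j, hℓ, hℓS, hA, hφ, hj⟩ :=
    Fermat.Agent.ES.GAL.ChebQbar23.exists_frobenius_inv_mul_pow_fixes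
      (L₁ ⊔ IntermediateField.adjoin ℚ {ζ}) σ₀ S
  have hℓp : ℓ ≠ p := fun h => hℓS (h ▸ hpS)
  -- `ℓ ^ j ≢ 1 mod p`
  have hζL : ζ ∈ L₁ ⊔ IntermediateField.adjoin ℚ {ζ} :=
    le_sup_right (a := L₁) (IntermediateField.mem_adjoin_simple_self ℚ ζ)
  have hfixζ := hj ζ hζL
  rw [AlgEquiv.mul_apply, frobenius_pow_apply p hℓ hℓp A hA hφ j hζ.pow_eq_one] at hfixζ
  have hσζ : σ₀ ζ = ζ ^ ℓ ^ j := by
    have h3 := congrArg σ₀ hfixζ
    rw [show σ₀ (σ₀⁻¹ (ζ ^ ℓ ^ j)) = ζ ^ ℓ ^ j from σ₀.apply_symm_apply _] at h3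
    exact h3.symm
  have hpos : 1 ≤ ℓ ^ j := Nat.one_le_pow _ _ hℓ.pos
  have hndvd : ¬ p ∣ ℓ ^ j - 1 := by
    rintro ⟨k, hk⟩
    apply hmove
    have e : ℓ ^ j = 1 + p * k := by omega
    rw [hσζ, e, pow_add, pow_one, pow_mul, hζ.pow_eq_one, one_pow, mul_one]
  have hunit : IsUnit (((ℓ ^ j - 1 : ℕ) : T)) := isUnit_natCast_of_not_dvd hp hpT hndvd
  rw [Nat.cast_sub hpos, Nat.cast_pow, Nat.cast_one] at hunit
  -- determinants
  have hdetφ : LinearMap.det (ρ.ρ (φ ^ j)) = (ℓ : T) ^ j := by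
    rw [map_pow, map_pow, hdet ℓ hℓ hℓS A hA φ hφ]
  have hcong : LinearMap.det (ρ.ρ (σ₀⁻¹ * φ ^ j)) - 1 ∈ IsLocalRing.maximalIdeal T := by
    have h2 := Fermat.Agent.ES.ALG31.RankTwo1.det_sub_det_mem (IsLocalRing.maximalIdeal T)
      (ρ.ρ (σ₀⁻¹ * φ ^ j)) 1 (fun v => by
        have := h1 (σ₀⁻¹ * φ ^ j) (fun x hx => hj x (le_sup_left (b := IntermediateField.adjoin ℚ {ζ}) hx)) v
        rwa [pow_one] at this)
    rwa [map_one] at h2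
  by_contra hnu
  have hmem : LinearMap.det (ρ.ρ σ₀) - 1 ∈ IsLocalRing.maximalIdeal T :=
    (IsLocalRing.mem_maximalIdeal _).mpr hnu
  have hsplit : (ℓ : T) ^ j = LinearMap.det (ρ.ρ σ₀) * LinearMap.det (ρ.ρ (σ₀⁻¹ * φ ^ j)) := by
    rw [← hdetφ, ← map_mul, ← map_mul, mul_inv_cancel_left]
  have : (ℓ : T) ^ j - 1 ∈ IsLocalRing.maximalIdeal T := by
    have e : (ℓ : T) ^ j - 1 = (LinearMap.det (ρ.ρ σ₀) - 1) *
        LinearMap.det (ρ.ρ (σ₀⁻¹ * φ ^ j)) + (LinearMap.det (ρ.ρ (σ₀⁻¹ * φ ^ j)) - 1) := by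
      rw [hsplit]; ring
    rw [e]
    exact Ideal.add_mem _ (Ideal.mul_mem_right _ _ hmem) hcong
  exact (IsLocalRing.mem_maximalIdeal _).mp this hunit

end Main

section Datum

variable {p : ℕ} {N : ℕ} [NeZero N] {S : Finset ℕ}
  {𝒪 : Type} [CommRing 𝒪] [IsDomain 𝒪] [IsDiscreteValuationRing 𝒪]
  [IsAdicComplete (IsLocalRing.maximalIdeal 𝒪) 𝒪]
  {θ : CuspForm.heckeAlgebra N 2 (↑S : Set ℕ) →+* IsLocalRing.ResidueField 𝒪}
  {T : Type} [CommRing T] [IsLocalRing T] [IsNoetherianRing T]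
  [IsAdicComplete (IsLocalRing.maximalIdeal T) T] [Algebra 𝒪 T] [IsLocalHom (algebraMap 𝒪 T)]
  [Module.Finite 𝒪 T] [Module.Free 𝒪 T]

omit [IsDomain 𝒪] [IsDiscreteValuationRing 𝒪] [IsAdicComplete (IsLocalRing.maximalIdeal 𝒪) 𝒪]
  [IsNoetherianRing T] [IsAdicComplete (IsLocalRing.maximalIdeal T) T] [Module.Finite 𝒪 T]
  [Module.Free 𝒪 T] in
/-- `p ∈ 𝔪_𝒪 ⇒ p ∈ 𝔪_T`. -/
theorem natCast_mem_maximalIdeal_of_base [IsLocalRing 𝒪]
    (hp𝒪 : (p : 𝒪) ∈ IsLocalRing.maximalIdeal 𝒪) : (p : T) ∈ IsLocalRing.maximalIdeal T := by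
  rw [IsLocalRing.mem_maximalIdeal, mem_nonunits_iff] at hp𝒪 ⊢
  intro h
  apply hp𝒪
  have : IsUnit (algebraMap 𝒪 T (p : 𝒪)) := by rwa [map_natCast]
  exact isUnit_of_map_unit (algebraMap 𝒪 T) _ this

/-- **An inertia element at `P ∣ p` with `det ρ(σ₀) - 1 ∈ Tˣ`** for a Hecke Galois representation
datum of level `N` with `p ∣ N`, `p` odd. -/
theorem exists_inertia_det_sub_one_isUnit_of_datum (hp : p.Prime) (hp2 : p ≠ 2)
    (hp𝒪 : (p : 𝒪) ∈ IsLocalRing.maximalIdeal 𝒪) (hN : p ∣ N)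
    (hNS : ∀ q : ℕ, q.Prime → q ∣ N → q ∈ S)
    (H : CuspForm.HeckeGaloisRepDatum N (↑S : Set ℕ) 𝒪 θ T)
    (P : ValuationSubring Qb) (hP : P.LiesOverPrime p) :
    ∃ σ₀ ∈ P.inertiaSubgroupIn ℚ, IsUnit (LinearMap.det (H.ρ.ρ σ₀) - 1) := by
  refine exists_inertia_det_sub_one_isUnit hp hp2 (natCast_mem_maximalIdeal_of_base hp𝒪) H.ρ S
    (hNS p hp hN) ?_ P hP
  intro ℓ hℓ hℓS A hA φ hφ
  have hℓS' : ℓ ∉ (↑S : Set ℕ) := by simpa using hℓS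
  have hℓN : ¬ ℓ ∣ N := fun hdvd => hℓS (hNS ℓ hℓ hdvd)
  exact (Fermat.Agent.ES.ALG31.Lucas15.trace_det_of_charpoly H.ρ.finrank_eq _
    (H.charpoly_frob ℓ hℓ hℓN hℓS' A hA φ hφ)).2

end Datum

end Fermat.Agent.ORD.ALG.DetInertia7
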