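/-
Programme ORD (S33), chapter ALG (helper7): **Claim A** — from `OrdP` at all finite levels to the
ordinary line.

`T` a noetherian local ring, `V` a free `T`-module with basis `b : Basis (Fin 2) T V`,
`ρ : G →* End_T V`, `I ≤ G` ("inertia"), normalised by `D ≤ G` ("decomposition group"). Assume
* `b 0 = ρ σ₀ w − w` for some `σ₀ ∈ I` (so `b 0` lies in the augmentation submodule);
* residually `I` acts trivially modulo the line: `ρ σ v − v ∈ T·b 0 + 𝔪V` for `σ ∈ I`;
* `OrdP I` holds for the action on `V / 𝔪ⁿV` for all `n`.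
Then `L := T·b 0` is `D`-stable and `I` acts trivially on `V/L` (`claimA`).

No eigenvectors, no Hensel, no reducedness: at every level the augmentation subgroup `C` is a
`T`-submodule containing `b 0`; `C = T·b 0 ⊕ K·b 1` for an ideal `K ⊇ J`, and connectedness applied to
`Y' = K·(V/JV) ⊇ Y'' = K·b 0 + 𝔪K·(V/JV)` gives `K ⊆ 𝔪K + J`, hence `K = J` by Nakayama.
-/
import Mathlib
import Fermat.Agent.ORD.ALG.OrdP7

set_option autoImplicit false
set_option linter.unusedSectionVars false

namespace Fermat.Agent.ORD.ALG.ClaimA7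

open Fermat.Agent.ORD.ALG.OrdP7 Pointwise

variable {T : Type*} [CommRing T]
variable {V : Type*} [AddCommGroup V] [Module T V]
variable {G : Type*} [Group G] (ρ : G →* Module.End T V)

/-- the action on the level `V / J V` (same term as the Prelude's `GaloisRepAdic.levelAction`). -/
noncomputable def lvl (J : Ideal T) (σ : G) :
    (V ⧸ (J • (⊤ : Submodule T V))) →ₗ[T] (V ⧸ (J • (⊤ : Submodule T V))) :=
  Submodule.mapQ _ _ (ρ σ) (by
    rw [← Submodule.map_le_iff_le_comap, Submodule.map_smul'']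
    exact Submodule.smul_mono le_rfl le_top)

@[simp] theorem lvl_mk (J : Ideal T) (σ : G) (v : V) :
    lvl ρ J σ (Submodule.Quotient.mk v) = Submodule.Quotient.mk (ρ σ v) := rfl

theorem lvl_mul (J : Ideal T) (σ τ : G) (x : V ⧸ (J • (⊤ : Submodule T V))) :
    lvl ρ J (σ * τ) x = lvl ρ J σ (lvl ρ J τ x) := by
  induction x using Submodule.Quotient.induction_on with
  | H v => rw [lvl_mk, lvl_mk, lvl_mk, map_mul]; rfl

theorem lvl_one (J : Ideal T) (x : V ⧸ (J • (⊤ : Submodule T V))) : lvl ρ J 1 x = x := by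
  induction x using Submodule.Quotient.induction_on with
  | H v => rw [lvl_mk, map_one]; rfl

section Level

variable (I : Subgroup G) (J : Ideal T)

/-- the augmentation subgroup of a level is stable under scalars. -/
theorem smul_mem_aug (t : T) {x : V ⧸ (J • (⊤ : Submodule T V))}
    (hx : x ∈ aug I (fun σ => lvl ρ J σ)) : t • x ∈ aug I (fun σ => lvl ρ J σ) := by
  unfold aug at hx ⊢
  induction hx using AddSubgroup.closure_induction with
  | mem y hy =>
    obtain ⟨σ, hσ, z, rfl⟩ := hy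
    refine AddSubgroup.subset_closure ⟨σ, hσ, t • z, ?_⟩
    show t • (lvl ρ J σ z - z) = lvl ρ J σ (t • z) - t • z
    rw [smul_sub, map_smul]
  | zero => rw [smul_zero]; exact AddSubgroup.zero_mem _
  | add y z _ _ hy hz => rw [smul_add]; exact AddSubgroup.add_mem _ hy hz
  | neg y _ hy => rw [smul_neg]; exact AddSubgroup.neg_mem _ hy

/-- the augmentation subgroup of a level is stable under the normaliser of `I`. -/
theorem lvl_mem_aug {D : Subgroup G} (hnorm : ∀ τ ∈ D, ∀ σ ∈ I, τ * σ * τ⁻¹ ∈ I) {τ : G}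
    (hτ : τ ∈ D) {x : V ⧸ (J • (⊤ : Submodule T V))}
    (hx : x ∈ aug I (fun σ => lvl ρ J σ)) : lvl ρ J τ x ∈ aug I (fun σ => lvl ρ J σ) := by
  unfold aug at hx ⊢
  induction hx using AddSubgroup.closure_induction with
  | mem y hy =>
    obtain ⟨σ, hσ, z, rfl⟩ := hy
    refine AddSubgroup.subset_closure ⟨τ * σ * τ⁻¹, hnorm τ hτ σ hσ, lvl ρ J τ z, ?_⟩
    show lvl ρ J τ (lvl ρ J σ z - z) = lvl ρ J (τ * σ * τ⁻¹) (lvl ρ J τ z) - lvl ρ J τ z
    rw [map_sub, ← lvl_mul, ← lvl_mul, inv_mul_cancel_right]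
  | zero => rw [map_zero]; exact AddSubgroup.zero_mem _
  | add y z _ _ hy hz => rw [map_add]; exact AddSubgroup.add_mem _ hy hz
  | neg y _ hy => rw [map_neg]; exact AddSubgroup.neg_mem _ hy

end Level

section Main

variable [IsLocalRing T] [IsNoetherianRing T]
variable (I : Subgroup G) (b : Module.Basis (Fin 2) T V)

/-- the `b 1`-coordinate of an element of `K • ⊤` lies in `K`. -/
theorem coord_mem_of_mem_smul_top (K : Ideal T) {z : V} (hz : z ∈ K • (⊤ : Submodule T V))
    (i : Fin 2) : b.coord i z ∈ K := by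
  refine Submodule.smul_induction_on hz ?_ ?_
  · intro t ht v _
    rw [map_smul, smul_eq_mul]
    exact K.mul_mem_right _ ht
  · intro x y hx hy
    rw [map_add]; exact K.add_mem hx hy

theorem repr_two (v : V) : v = b.coord 0 v • b 0 + b.coord 1 v • b 1 := by
  conv_lhs => rw [← b.sum_repr v]
  rw [Fin.sum_univ_two]
  rfl

include b in
/-- **the level statement**: at a level `V / J V` with `OrdP`, the augmentation subgroup is the image
of the line `T·b 0`. -/
theorem aug_level_le (J : Ideal T) {σ₀ : G} (hσ₀ : σ₀ ∈ I) {w : V} (hw : b 0 = ρ σ₀ w - w)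
    (hres : ∀ σ ∈ I, ∀ v : V, ρ σ v - v ∈
      Submodule.span T {b 0} ⊔ IsLocalRing.maximalIdeal T • (⊤ : Submodule T V))
    (hord : OrdP I (fun σ => lvl ρ J σ)) {x : V ⧸ (J • (⊤ : Submodule T V))}
    (hx : x ∈ aug I (fun σ => lvl ρ J σ)) :
    ∃ s : T, x = Submodule.Quotient.mk (s • b 0) := by
  classical
  set mk : V →ₗ[T] (V ⧸ (J • (⊤ : Submodule T V))) := Submodule.mkQ (J • (⊤ : Submodule T V))
    with hmk
  set C := aug I (fun σ => lvl ρ J σ) with hC
  set 𝔪 := IsLocalRing.maximalIdeal T with h𝔪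
  have hmk_apply : ∀ v : V, mk v = Submodule.Quotient.mk v := fun v => rfl
  have hsurj : Function.Surjective mk := Submodule.mkQ_surjective _
  -- (b) `mk (b 0) ∈ C`
  have hb0 : mk (b 0) ∈ C := by
    rw [hw, map_sub]
    exact sub_mem_aug hσ₀ (mk w)
  -- the ideal `K`
  let K : Ideal T :=
    { carrier := {t | t • mk (b 1) ∈ C}
      add_mem' := fun {s t} hs ht => by
        show (s + t) • mk (b 1) ∈ C
        rw [add_smul]; exact C.add_mem hs ht
      zero_mem' := by
        show (0 : T) • mk (b 1) ∈ C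
        rw [zero_smul]; exact C.zero_mem
      smul_mem' := fun c t ht => by
        show (c • t) • mk (b 1) ∈ C
        rw [smul_eq_mul, mul_smul]
        exact smul_mem_aug ρ I J c ht }
  have hK : ∀ t : T, t ∈ K ↔ t • mk (b 1) ∈ C := fun t => Iff.rfl
  have hJK : J ≤ K := by
    intro t ht
    rw [hK, ← map_smul, hmk_apply]
    have : (Submodule.Quotient.mk (t • b 1) : V ⧸ (J • (⊤ : Submodule T V))) = 0 := by
      rw [Submodule.Quotient.mk_eq_zero]
      exact Submodule.smul_mem_smul ht Submodule.mem_top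
    rw [this]
    exact C.zero_mem
  -- `Y'` and `Y''`
  set Y' : Submodule T (V ⧸ (J • (⊤ : Submodule T V))) :=
    K • (⊤ : Submodule T (V ⧸ (J • (⊤ : Submodule T V)))) with hY'
  set Y'' : Submodule T (V ⧸ (J • (⊤ : Submodule T V))) :=
    K • Submodule.span T {mk (b 0)} ⊔ (𝔪 * K) • (⊤ : Submodule T (V ⧸ (J • (⊤ : Submodule T V))))
    with hY''
  have h1 : Y''.toAddSubgroup ≤ Y'.toAddSubgroup := by
    rw [Submodule.toAddSubgroup_le]
    refine sup_le (Submodule.smul_mono le_rfl le_top) (Submodule.smul_mono ?_ le_rfl)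
    exact Ideal.mul_le_inf.trans inf_le_right
  have h2 : Y'.toAddSubgroup ≤ C := by
    intro y hy
    have hy' : y ∈ Y' := hy
    refine Submodule.smul_induction_on hy' ?_ ?_
    · intro t ht v _
      obtain ⟨v', rfl⟩ := hsurj v
      have hv2 : mk v' = b.coord 0 v' • mk (b 0) + b.coord 1 v' • mk (b 1) := by
        rw [← map_smul mk, ← map_smul mk, ← map_add mk, ← repr_two b v']
      rw [hv2, smul_add]
      refine C.add_mem (smul_mem_aug ρ I J t (smul_mem_aug ρ I J _ hb0)) ?_
      rw [smul_comm]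
      exact smul_mem_aug ρ I J _ ((hK t).mp ht)
    · intro x y hx hy
      exact C.add_mem hx hy
  have h3 : ∀ σ ∈ I, ∀ y ∈ Y'.toAddSubgroup, lvl ρ J σ y - y ∈ Y''.toAddSubgroup := by
    intro σ hσ y hy
    have hy' : y ∈ Y' := hy
    show lvl ρ J σ y - y ∈ Y''
    refine Submodule.smul_induction_on hy' ?_ ?_
    · intro t ht v _
      obtain ⟨v', rfl⟩ := hsurj v
      have e1 : lvl ρ J σ (t • mk v') - t • mk v' = t • mk (ρ σ v' - v') := by
        rw [map_smul, ← smul_sub, map_sub]
        rfl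
      rw [e1]
      obtain ⟨u, hu, z, hz, huz⟩ := Submodule.mem_sup.mp (hres σ hσ v')
      rw [← huz, map_add, smul_add]
      refine Submodule.add_mem _ (Submodule.mem_sup_left ?_) (Submodule.mem_sup_right ?_)
      · obtain ⟨s, rfl⟩ := Submodule.mem_span_singleton.mp hu
        rw [map_smul]
        exact Submodule.smul_mem_smul ht
          (Submodule.smul_mem _ _ (Submodule.mem_span_singleton_self _))
      · -- `t • mk z ∈ (𝔪 K) • ⊤`
        refine Submodule.smul_induction_on hz ?_ ?_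
        · intro c hc v'' _
          rw [map_smul, smul_smul]
          exact Submodule.smul_mem_smul (mul_comm c t ▸ Ideal.mul_mem_mul hc ht) Submodule.mem_top
        · intro x y hx hy
          rw [map_add, smul_add]; exact Submodule.add_mem _ hx hy
    · intro x y hx hy
      have : lvl ρ J σ (x + y) - (x + y) = (lvl ρ J σ x - x) + (lvl ρ J σ y - y) := by
        rw [map_add]; abel
      rw [this]
      exact Submodule.add_mem _ hx hy
  have hconn : Y'.toAddSubgroup ≤ Y''.toAddSubgroup :=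
    hord Y''.toAddSubgroup Y'.toAddSubgroup h1 h2 h3
  -- (f) `K ≤ J ⊔ 𝔪 K`
  have hKle : K ≤ J ⊔ 𝔪 • K := by
    intro t ht
    have ht1 : t • mk (b 1) ∈ Y' := Submodule.smul_mem_smul ht Submodule.mem_top
    have ht2 : t • mk (b 1) ∈ Y'' := hconn ht1
    obtain ⟨u, hu, z, hz, huz⟩ := Submodule.mem_sup.mp ht2
    -- `u = mk (s • b 0)`
    have hu' : u ∈ Submodule.span T {mk (b 0)} :=
      Submodule.smul_le_right hu
    obtain ⟨s, rfl⟩ := Submodule.mem_span_singleton.mp hu'
    -- `z = mk z'` with `z' ∈ (𝔪 K) • ⊤`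
    have hz' : z ∈ ((𝔪 * K) • (⊤ : Submodule T V)).map mk := by
      rw [Submodule.map_smul'', Submodule.map_top, Submodule.range_mkQ]
      exact hz
    obtain ⟨z', hz'', rfl⟩ := Submodule.mem_map.mp hz'
    have h0 : mk (t • b 1 - s • b 0 - z') = 0 := by
      rw [map_sub, map_sub, map_smul, map_smul, ← huz]; abel
    rw [hmk_apply, Submodule.Quotient.mk_eq_zero] at h0
    have hc := coord_mem_of_mem_smul_top b J h0 1
    have hcz := coord_mem_of_mem_smul_top b (𝔪 * K) hz'' 1
    rw [map_sub, map_sub, map_smul, map_smul, Module.Basis.coord_apply, Module.Basis.coord_apply,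
      Module.Basis.repr_self, Module.Basis.repr_self, Finsupp.single_eq_same,
      Finsupp.single_eq_of_ne (by decide), smul_eq_mul, smul_eq_mul, mul_one, mul_zero,
      sub_zero] at hc
    have : t = (t - b.coord 1 z') + b.coord 1 z' := by ring
    rw [this]
    exact Submodule.add_mem _ (Submodule.mem_sup_left hc)
      (Submodule.mem_sup_right (by rwa [smul_eq_mul]))
  have hKJ : K ≤ J :=
    Submodule.le_of_le_smul_of_le_jacobson_bot (IsNoetherian.noetherian K)
      (IsLocalRing.maximalIdeal_le_jacobson ⊥) hKle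
  -- (d)+(g)
  obtain ⟨v, hv⟩ := hsurj x
  refine ⟨b.coord 0 v, ?_⟩
  have hv2 : mk v = b.coord 0 v • mk (b 0) + b.coord 1 v • mk (b 1) := by
    rw [← map_smul mk, ← map_smul mk, ← map_add mk, ← repr_two b v]
  have hy : b.coord 1 v ∈ K := by
    rw [hK]
    have e : b.coord 1 v • mk (b 1) = mk v - b.coord 0 v • mk (b 0) := by
      rw [hv2]; abel
    rw [e, hv]
    exact C.sub_mem hx (smul_mem_aug ρ I J _ hb0)
  have hy0 : b.coord 1 v • mk (b 1) = 0 := by
    rw [← map_smul mk, hmk_apply, Submodule.Quotient.mk_eq_zero]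
    exact Submodule.smul_mem_smul (hKJ hy) Submodule.mem_top
  rw [← hv, hv2, hy0, add_zero, ← map_smul mk]
  rfl

include b in
/-- an element congruent to a multiple of `b 0` modulo every power of the maximal ideal is a
multiple of `b 0`. -/
theorem mem_span_of_forall_level {x : V}
    (h : ∀ n : ℕ, ∃ s : T, (Submodule.Quotient.mk x :
      V ⧸ ((IsLocalRing.maximalIdeal T ^ n) • (⊤ : Submodule T V))) = Submodule.Quotient.mk (s • b 0)) :
    x ∈ Submodule.span T {b 0} := by
  have h1 : ∀ n : ℕ, b.coord 1 x ∈ IsLocalRing.maximalIdeal T ^ n := by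
    intro n
    obtain ⟨s, hs⟩ := h n
    rw [Submodule.Quotient.eq] at hs
    have hc := coord_mem_of_mem_smul_top b _ hs 1
    rw [map_sub, map_smul, Module.Basis.coord_apply, Module.Basis.coord_apply,
      Module.Basis.repr_self, Finsupp.single_eq_of_ne (by decide), smul_zero, sub_zero] at hc
    exact hc
  have h2 : b.coord 1 x = 0 := by
    have h3 : b.coord 1 x ∈ ⨅ n : ℕ, IsLocalRing.maximalIdeal T ^ n :=
      (Submodule.mem_iInf _).mpr h1
    rw [Ideal.iInf_pow_eq_bot_of_isLocalRing _ (IsLocalRing.maximalIdeal.isMaximal T).ne_top] at h3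
    exact h3
  rw [repr_two b x, h2, zero_smul, add_zero]
  exact Submodule.smul_mem _ _ (Submodule.mem_span_singleton_self _)

include b in
/-- **Claim A.** -/
theorem claimA (D : Subgroup G) (hnorm : ∀ τ ∈ D, ∀ σ ∈ I, τ * σ * τ⁻¹ ∈ I)
    {σ₀ : G} (hσ₀ : σ₀ ∈ I) {w : V} (hw : b 0 = ρ σ₀ w - w)
    (hres : ∀ σ ∈ I, ∀ v : V, ρ σ v - v ∈
      Submodule.span T {b 0} ⊔ IsLocalRing.maximalIdeal T • (⊤ : Submodule T V))
    (hord : ∀ n : ℕ, OrdP I (fun σ => lvl ρ (IsLocalRing.maximalIdeal T ^ n) σ)) :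
    (∀ τ ∈ D, ∀ v ∈ Submodule.span T {b 0}, ρ τ v ∈ Submodule.span T {b 0}) ∧
      (∀ σ ∈ I, ∀ v : V, ρ σ v - v ∈ Submodule.span T {b 0}) := by
  constructor
  · intro τ hτ v hv
    obtain ⟨s, rfl⟩ := Submodule.mem_span_singleton.mp hv
    rw [map_smul]
    refine Submodule.smul_mem _ _ (mem_span_of_forall_level b fun n => ?_)
    have hb0 : (Submodule.Quotient.mk (b 0) :
        V ⧸ ((IsLocalRing.maximalIdeal T ^ n) • (⊤ : Submodule T V)))
        ∈ aug I (fun σ => lvl ρ (IsLocalRing.maximalIdeal T ^ n) σ) := by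
      rw [hw, Submodule.Quotient.mk_sub]
      exact sub_mem_aug hσ₀ (Submodule.Quotient.mk w)
    have h1 := lvl_mem_aug ρ I (IsLocalRing.maximalIdeal T ^ n) hnorm hτ hb0
    exact aug_level_le ρ I b _ hσ₀ hw hres (hord n) h1
  · intro σ hσ v
    refine mem_span_of_forall_level b fun n => ?_
    have h1 : (Submodule.Quotient.mk (ρ σ v - v) :
        V ⧸ ((IsLocalRing.maximalIdeal T ^ n) • (⊤ : Submodule T V)))
        ∈ aug I (fun σ => lvl ρ (IsLocalRing.maximalIdeal T ^ n) σ) := by
      rw [Submodule.Quotient.mk_sub]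
      exact sub_mem_aug hσ (Submodule.Quotient.mk v)
    exact aug_level_le ρ I b _ hσ₀ hw hres (hord n) h1

end Main

end Fermat.Agent.ORD.ALG.ClaimA7
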