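/-
Programme ORD (S33), chapter O1 ALG, helper7.  **From `OrdP` at all finite levels to `IsOrdinaryAt`.**

* `exists_line` (pure algebra): `T` noetherian local, `V` free of rank two, `ρ : G →* End_T V`,
  `I ≤ G` normalised by `D ≤ G`, `σ₀ ∈ I` with `det ρ(σ₀) - 1 ∈ Tˣ`, `OrdP I` on every level
  `V / 𝔪ⁿ V`, and residually a line `L̄ = k·b̄₀ ⊆ k ⊗ V` with `I` trivial on `(k ⊗ V) / L̄`.  Then there
  is a basis `b` of `V` such that `L = T·b₀` is `D`-stable and `I` acts trivially on `V / L`.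
  (`w` with `e₀ = ρ σ₀ w - w ∉ 𝔪V` exists because `det ρ(σ₀) ≢ 1`; `1 ⊗ e₀` spans `L̄`; lift `b̄₁` to
  `e₁`; `(e₀, e₁)` is a basis by Nakayama; then `ClaimA7.claimA`.)
* `isOrdinaryAt_of_ordP` : the same for a `GaloisRepAdic T` and all `P ∣ p`.
* `isOrdinaryAt_of_datum` : for a `HeckeGaloisRepDatum` (the unit comes from `DetInertia7`).
-/
import Mathlib
import Fermat.Prelude.Def_GaloisRep_LocalConditions
import Fermat.Prelude.Def_GaloisRep_Flat
import Fermat.Prelude.Def_CuspForm_HeckeGaloisRepDatum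
import Fermat.Agent.ES.ALG31.RankTwo1
import Fermat.Agent.ORD.ALG.ClaimA7
import Fermat.Agent.ORD.ALG.DetInertia7

set_option autoImplicit false

namespace Fermat.Agent.ORD.ALG.Ordinary7

local notation "Qb" => AlgebraicClosure ℚ
local notation "GQ" => (AlgebraicClosure ℚ ≃ₐ[ℚ] AlgebraicClosure ℚ)

open Fermat.Agent.ORD.ALG.OrdP7 Fermat.Agent.ORD.ALG.ClaimA7 TensorProduct Module

section Tensor

variable {T : Type*} [CommRing T] [IsLocalRing T] {V : Type*} [AddCommGroup V] [Module T V]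

theorem one_tmul_eq_zero_iff (v : V) :
    (1 : IsLocalRing.ResidueField T) ⊗ₜ[T] v = 0 ↔
      v ∈ IsLocalRing.maximalIdeal T • (⊤ : Submodule T V) := by
  rw [← LinearMap.ker_tensorProductMk (I := IsLocalRing.maximalIdeal T) (Q := V),
    LinearMap.mem_ker]
  rfl

theorem exists_one_tmul_eq (x : IsLocalRing.ResidueField T ⊗[T] V) :
    ∃ v : V, (1 : IsLocalRing.ResidueField T) ⊗ₜ[T] v = x :=
  TensorProduct.mk_surjective T V (IsLocalRing.ResidueField T) IsLocalRing.residue_surjective x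

theorem residue_smul_one_tmul (r : T) (v : V) :
    (IsLocalRing.residue T r) • ((1 : IsLocalRing.ResidueField T) ⊗ₜ[T] v) =
      (1 : IsLocalRing.ResidueField T) ⊗ₜ[T] (r • v) := by
  rw [TensorProduct.tmul_smul, TensorProduct.smul_tmul', TensorProduct.smul_tmul', smul_eq_mul,
    mul_one, Algebra.smul_def, mul_one]
  rfl

end Tensor

section Line

variable {T : Type*} [CommRing T] [IsLocalRing T] [IsNoetherianRing T]
variable {V : Type*} [AddCommGroup V] [Module T V] [Module.Free T V] [Module.Finite T V]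
variable {G : Type*} [Group G] (ρ : G →* Module.End T V)

/-- **The ordinary line from `OrdP` at all levels** (pure algebra). -/
theorem exists_line (I D : Subgroup G) (hnorm : ∀ τ ∈ D, ∀ σ ∈ I, τ * σ * τ⁻¹ ∈ I)
    {σ₀ : G} (hσ₀ : σ₀ ∈ I) (hunit : IsUnit (LinearMap.det (ρ σ₀) - 1))
    (hord : ∀ n : ℕ, OrdP I (fun σ => lvl ρ (IsLocalRing.maximalIdeal T ^ n) σ))
    (Lb : Submodule (IsLocalRing.ResidueField T) (IsLocalRing.ResidueField T ⊗[T] V))
    (bb : Basis (Fin 2) (IsLocalRing.ResidueField T) (IsLocalRing.ResidueField T ⊗[T] V))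
    (hLb : Lb = Submodule.span (IsLocalRing.ResidueField T) {bb 0})
    (hIb : ∀ σ ∈ I, ∀ x : IsLocalRing.ResidueField T ⊗[T] V,
      (ρ σ).baseChange (IsLocalRing.ResidueField T) x - x ∈ Lb) :
    ∃ L : Submodule T V, (∃ b : Basis (Fin 2) T V, L = Submodule.span T {b 0}) ∧
      (∀ τ ∈ D, ∀ v ∈ L, ρ τ v ∈ L) ∧ (∀ σ ∈ I, ∀ v : V, ρ σ v - v ∈ L) := by
  classical
  -- `w` with `e₀ = ρ σ₀ w - w ∉ 𝔪 V`
  obtain ⟨w, hw⟩ : ∃ w : V, ρ σ₀ w - w ∉ IsLocalRing.maximalIdeal T • (⊤ : Submodule T V) := by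
    by_contra hcon
    push Not at hcon
    have h2 := Fermat.Agent.ES.ALG31.RankTwo1.det_sub_det_mem (IsLocalRing.maximalIdeal T)
      (ρ σ₀) 1 (fun v => by rw [Module.End.one_apply]; exact hcon v)
    rw [map_one] at h2
    exact (IsLocalRing.mem_maximalIdeal _).mp h2 hunit
  -- `1 ⊗ e₀` spans `Lb`
  have h0mem : (1 : IsLocalRing.ResidueField T) ⊗ₜ[T] (ρ σ₀ w - w) ∈ Lb := by
    have := hIb σ₀ hσ₀ ((1 : IsLocalRing.ResidueField T) ⊗ₜ[T] w)
    rwa [LinearMap.baseChange_tmul, ← TensorProduct.tmul_sub] at this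
  have h0ne : (1 : IsLocalRing.ResidueField T) ⊗ₜ[T] (ρ σ₀ w - w) ≠ 0 := fun h =>
    hw ((one_tmul_eq_zero_iff _).mp h)
  rw [hLb] at h0mem
  obtain ⟨c, hc⟩ := Submodule.mem_span_singleton.mp h0mem
  have hc0 : c ≠ 0 := by
    rintro rfl
    rw [zero_smul] at hc
    exact h0ne hc.symm
  obtain ⟨e₁, he₁⟩ := exists_one_tmul_eq (bb 1)
  -- the residual basis `(c • bb 0, bb 1)` and its lift `(e₀, e₁)`
  let wt : Fin 2 → (IsLocalRing.ResidueField T)ˣ := ![Units.mk0 c hc0, 1]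
  let b' : Basis (Fin 2) (IsLocalRing.ResidueField T) (IsLocalRing.ResidueField T ⊗[T] V) :=
    bb.unitsSMul wt
  let f : Fin 2 → V := ![ρ σ₀ w - w, e₁]
  have hb' : ∀ i, (1 : IsLocalRing.ResidueField T) ⊗ₜ[T] f i = b' i := by
    intro i
    fin_cases i
    · show (1 : IsLocalRing.ResidueField T) ⊗ₜ[T] (ρ σ₀ w - w) = bb.unitsSMul wt 0
      rw [Basis.unitsSMul_apply, ← hc]
      rfl
    · show (1 : IsLocalRing.ResidueField T) ⊗ₜ[T] e₁ = bb.unitsSMul wt 1
      rw [Basis.unitsSMul_apply, he₁]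
      show bb 1 = (1 : (IsLocalRing.ResidueField T)ˣ) • bb 1
      rw [one_smul]
  have hli : LinearIndependent T f := by
    apply IsLocalRing.linearIndependent_of_flat
    have hfun : (TensorProduct.mk T (IsLocalRing.ResidueField T) V 1 ∘ f) = b' :=
      funext fun i => hb' i
    rw [hfun]
    exact b'.linearIndependent
  have hsp : ⊤ ≤ Submodule.span T (Set.range f) :=
    (IsLocalRing.span_eq_top_of_tmul_eq_basis f b' hb').ge
  let b : Basis (Fin 2) T V := Basis.mk hli hsp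
  have hb0 : b 0 = ρ σ₀ w - w := by
    show Basis.mk hli hsp 0 = _
    rw [Basis.mk_apply]
    rfl
  -- the residual hypothesis of Claim A
  have hresT : ∀ σ ∈ I, ∀ v : V, ρ σ v - v ∈
      Submodule.span T {b 0} ⊔ IsLocalRing.maximalIdeal T • (⊤ : Submodule T V) := by
    intro σ hσ v
    have h1 := hIb σ hσ ((1 : IsLocalRing.ResidueField T) ⊗ₜ[T] v)
    rw [LinearMap.baseChange_tmul, ← TensorProduct.tmul_sub, hLb] at h1
    obtain ⟨d, hd⟩ := Submodule.mem_span_singleton.mp h1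
    obtain ⟨r, hr⟩ := IsLocalRing.residue_surjective (d * c⁻¹)
    have hz : (1 : IsLocalRing.ResidueField T) ⊗ₜ[T] (ρ σ v - v - r • (ρ σ₀ w - w)) = 0 := by
      rw [TensorProduct.tmul_sub, ← residue_smul_one_tmul, hr, ← hc, ← hd, smul_smul,
        mul_assoc, inv_mul_cancel₀ hc0, mul_one, sub_self]
    have hmem := (one_tmul_eq_zero_iff _).mp hz
    have e : ρ σ v - v = r • b 0 + (ρ σ v - v - r • (ρ σ₀ w - w)) := by
      rw [hb0]; abel
    rw [e]
    exact Submodule.add_mem _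
      (Submodule.mem_sup_left (Submodule.smul_mem _ _ (Submodule.mem_span_singleton_self _)))
      (Submodule.mem_sup_right hmem)
  obtain ⟨h1, h2⟩ := claimA ρ I b D hnorm hσ₀ hb0 hresT hord
  exact ⟨Submodule.span T {b 0}, ⟨b, rfl⟩, h1, h2⟩

end Line

section Galois

/-- the inertia group is normalised by the decomposition group. -/
theorem conj_mem_inertiaSubgroupIn (P : ValuationSubring Qb) {τ σ : GQ}
    (hτ : τ ∈ P.decompositionSubgroup ℚ) (hσ : σ ∈ P.inertiaSubgroupIn ℚ) :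
    τ * σ * τ⁻¹ ∈ P.inertiaSubgroupIn ℚ := by
  unfold ValuationSubring.inertiaSubgroupIn at hσ ⊢
  obtain ⟨σ', hσ', rfl⟩ := hσ
  have hn : (P.inertiaSubgroup ℚ).Normal := by
    unfold ValuationSubring.inertiaSubgroup
    exact MonoidHom.normal_ker _
  exact ⟨(⟨τ, hτ⟩ : P.decompositionSubgroup ℚ) * σ' * (⟨τ, hτ⟩ : P.decompositionSubgroup ℚ)⁻¹,
    hn.conj_mem σ' hσ' _, rfl⟩

variable {T : Type} [CommRing T] [IsLocalRing T] [IsNoetherianRing T]

/-- **`OrdP` at all levels `V / 𝔪ⁿ V` + a unit `det ρ(σ₀) - 1` on inertia + residual ordinarity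
⇒ ordinarity.** -/
theorem isOrdinaryAt_of_ordP (ρ : GaloisRepAdic T) (p : ℕ)
    (hσ₀ : ∀ P : ValuationSubring Qb, P.LiesOverPrime p →
      ∃ σ₀ ∈ P.inertiaSubgroupIn ℚ, IsUnit (LinearMap.det (ρ.ρ σ₀) - 1))
    (hlev : ∀ P : ValuationSubring Qb, P.LiesOverPrime p → ∀ n : ℕ,
      OrdP (P.inertiaSubgroupIn ℚ)
        (fun σ x => ρ.levelAction (IsLocalRing.maximalIdeal T ^ n) σ x))
    (hres : (GaloisRepAdic.ofResidualGaloisRep ρ.residual).IsOrdinaryAt p) :
    ρ.IsOrdinaryAt p := by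
  intro P hP
  obtain ⟨σ₀, hσ₀I, hunit⟩ := hσ₀ P hP
  have key : ∃ Lb : Submodule (IsLocalRing.ResidueField T) (IsLocalRing.ResidueField T ⊗[T] ρ.V),
      (∃ bb : Basis (Fin 2) (IsLocalRing.ResidueField T) (IsLocalRing.ResidueField T ⊗[T] ρ.V),
        Lb = Submodule.span (IsLocalRing.ResidueField T) {bb 0}) ∧
      (∀ σ ∈ P.decompositionSubgroup ℚ, ∀ v ∈ Lb,
        (ρ.ρ σ).baseChange (IsLocalRing.ResidueField T) v ∈ Lb) ∧
      (∀ σ ∈ P.inertiaSubgroupIn ℚ, ∀ v : IsLocalRing.ResidueField T ⊗[T] ρ.V,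
        (ρ.ρ σ).baseChange (IsLocalRing.ResidueField T) v - v ∈ Lb) := hres P hP
  obtain ⟨Lb, ⟨bb, hLb⟩, -, hIb⟩ := key
  exact exists_line ρ.ρ (P.inertiaSubgroupIn ℚ) (P.decompositionSubgroup ℚ)
    (fun τ hτ σ hσ => conj_mem_inertiaSubgroupIn P hτ hσ) hσ₀I hunit (fun n => hlev P hP n)
    Lb bb hLb hIb

end Galois

section Datum

variable {p : ℕ} {N : ℕ} [NeZero N] {S : Finset ℕ}
  {𝒪 : Type} [CommRing 𝒪] [IsDomain 𝒪] [IsDiscreteValuationRing 𝒪]
  [IsAdicComplete (IsLocalRing.maximalIdeal 𝒪) 𝒪]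
  {θ : CuspForm.heckeAlgebra N 2 (↑S : Set ℕ) →+* IsLocalRing.ResidueField 𝒪}
  {T : Type} [CommRing T] [IsLocalRing T] [IsNoetherianRing T]
  [IsAdicComplete (IsLocalRing.maximalIdeal T) T] [Algebra 𝒪 T] [IsLocalHom (algebraMap 𝒪 T)]
  [Module.Finite 𝒪 T] [Module.Free 𝒪 T]

/-- the residue field of `T` is finite. -/
theorem finite_residueField_of_datum [Finite (IsLocalRing.ResidueField 𝒪)]
    (H : CuspForm.HeckeGaloisRepDatum N (↑S : Set ℕ) 𝒪 θ T) :
    Finite (IsLocalRing.ResidueField T) := by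
  refine Finite.of_surjective (IsLocalRing.ResidueField.map (algebraMap 𝒪 T)) ?_
  intro y
  obtain ⟨a, ha⟩ := H.residue_surjective y
  exact ⟨IsLocalRing.residue 𝒪 a, ha⟩

/-- `T / 𝔪ⁿ` is finite. -/
theorem finite_quotient_maximalIdeal_pow [Finite (IsLocalRing.ResidueField 𝒪)]
    (H : CuspForm.HeckeGaloisRepDatum N (↑S : Set ℕ) 𝒪 θ T) (n : ℕ) :
    Finite (T ⧸ IsLocalRing.maximalIdeal T ^ n) := by
  have h1 : Finite (T ⧸ IsLocalRing.maximalIdeal T) := finite_residueField_of_datum H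
  exact Ideal.finite_quotient_pow (IsNoetherian.noetherian (IsLocalRing.maximalIdeal T)) n

/-- **S33 from `OrdP` at the finite levels**: hypotheses of S33 (with `p ∣ N` only) plus `OrdP` of the
inertia group at every `P ∣ p` on every finite level `V / I'V`. -/
theorem isOrdinaryAt_of_datum [Finite (IsLocalRing.ResidueField 𝒪)]
    (hp : p.Prime) (hp2 : p ≠ 2) (hp𝒪 : (p : 𝒪) ∈ IsLocalRing.maximalIdeal 𝒪) (hN : p ∣ N)
    (hNS : ∀ q : ℕ, q.Prime → q ∣ N → q ∈ S)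
    (H : CuspForm.HeckeGaloisRepDatum N (↑S : Set ℕ) 𝒪 θ T)
    (hlev : ∀ P : ValuationSubring Qb, P.LiesOverPrime p → ∀ I' : Ideal T, Finite (T ⧸ I') →
      OrdP (P.inertiaSubgroupIn ℚ) (fun σ x => H.ρ.levelAction I' σ x))
    (hres : (GaloisRepAdic.ofResidualGaloisRep H.ρ.residual).IsOrdinaryAt p) :
    H.ρ.IsOrdinaryAt p :=
  isOrdinaryAt_of_ordP H.ρ p
    (fun P hP => Fermat.Agent.ORD.ALG.DetInertia7.exists_inertia_det_sub_one_isUnit_of_datum
      hp hp2 hp𝒪 hN hNS H P hP)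
    (fun P hP n => hlev P hP _ (finite_quotient_maximalIdeal_pow H n)) hres

end Datum

end Fermat.Agent.ORD.ALG.Ordinary7
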