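/-
Programme ORD (S33), chapter O1 ALG, helper7.  **S33 reduced to `OrdP` of the torsion of `J₀(N)`.**

`isOrdinaryAt_of_tors` : under the hypotheses of S33 (only `p ∣ N` of `hN` is used),
  `(∀ P ∣ p, ∀ k, OrdP I_P (torsAct N (p ^ k))) → H.ρ.IsOrdinaryAt p`,
`I_P = P.inertiaSubgroupIn ℚ`, `torsAct N n σ` the action of `σ ∈ G_ℚ` on `J₀(N)[n]`
(`FF/LEVEL/Transfer0.torsAct`).  Combines helper5's chain `ORD/CHAIN/OrdPChain5.ordP_level_of_tors`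
with `ORD/ALG/Ordinary7.isOrdinaryAt_of_datum`.
-/
import Fermat.Agent.ORD.ALG.Ordinary7
import Fermat.Agent.ORD.CHAIN.OrdPChain5

set_option autoImplicit false

namespace Fermat.Agent.ORD.ALG.S33Reduce7

open Fermat.Agent.ORD.ALG.OrdP7 Fermat.Agent.FF.LEVEL.Transfer0

local notation "Qb" => AlgebraicClosure ℚ

variable {p : ℕ} {N : ℕ} [NeZero N] {S : Finset ℕ}
  {𝒪 : Type} [CommRing 𝒪] [IsDomain 𝒪] [IsDiscreteValuationRing 𝒪]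
  [IsAdicComplete (IsLocalRing.maximalIdeal 𝒪) 𝒪]
  {θ : CuspForm.heckeAlgebra N 2 (↑S : Set ℕ) →+* IsLocalRing.ResidueField 𝒪}
  {T : Type} [CommRing T] [IsLocalRing T] [IsNoetherianRing T]
  [IsAdicComplete (IsLocalRing.maximalIdeal T) T] [Algebra 𝒪 T] [IsLocalHom (algebraMap 𝒪 T)]
  [Module.Finite 𝒪 T] [Module.Free 𝒪 T]

/-- **S33 from `OrdP` of the inertia groups at `p` on the torsion `J₀(N)[p ^ k]`.** -/
theorem isOrdinaryAt_of_tors [Finite (IsLocalRing.ResidueField 𝒪)] [CharZero 𝒪]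
    (hp : p.Prime) (hp2 : p ≠ 2) (hp𝒪 : (p : 𝒪) ∈ IsLocalRing.maximalIdeal 𝒪) (hN : p ∣ N)
    (hNS : ∀ q : ℕ, q.Prime → q ∣ N → q ∈ S)
    (H : CuspForm.HeckeGaloisRepDatum N (↑S : Set ℕ) 𝒪 θ T)
    (htors : ∀ P : ValuationSubring Qb, P.LiesOverPrime p → ∀ k : ℕ,
      OrdP (P.inertiaSubgroupIn ℚ) (torsAct N ((p : ℤ) ^ k)))
    (hres : (GaloisRepAdic.ofResidualGaloisRep H.ρ.residual).IsOrdinaryAt p) :
    H.ρ.IsOrdinaryAt p :=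
  Fermat.Agent.ORD.ALG.Ordinary7.isOrdinaryAt_of_datum hp hp2 hp𝒪 hN hNS H
    (fun P hP I' hI' => Fermat.Agent.ORD.CHAIN.OrdPChain5.ordP_level_of_tors
      (P.inertiaSubgroupIn ℚ) hp hp2 hp𝒪 hN hNS H (htors P hP) I' hI') hres

end Fermat.Agent.ORD.ALG.S33Reduce7
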